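/-
S56 / W5 leaf L6, part 1 (helper34): the trace form on trace-zero `2 × 2` matrices over a field
of characteristic `≠ 2` is perfect, in explicit form.
-/
import Fermat.Agent.S56.TW.GT.Average.TadBasic

set_option autoImplicit false

namespace Fermat.Agent.S56.TW

open Matrix

variable {k : Type} [Field k]

/-- the trace of a product of `2 × 2` matrices -/
theorem br_trace_mul (X A : Matrix (Fin 2) (Fin 2) k) :
    (X * A).trace = X 0 0 * A 0 0 + X 0 1 * A 1 0 + (X 1 0 * A 0 1 + X 1 1 * A 1 1) := by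
  rw [Matrix.trace_fin_two, Matrix.mul_apply, Matrix.mul_apply, Fin.sum_univ_two,
    Fin.sum_univ_two]

/-- **Nondegeneracy**: a trace-zero matrix which is orthogonal to all trace-zero matrices is
zero (`2 ≠ 0`). -/
theorem br_eq_zero_of_trace_mul (h2 : (2 : k) ≠ 0) (X : Matrix (Fin 2) (Fin 2) k)
    (hX : X.trace = 0)
    (h : ∀ A : Matrix (Fin 2) (Fin 2) k, A.trace = 0 → (X * A).trace = 0) : X = 0 := by
  have h01 := h !![0, 1; 0, 0] (by simp [Matrix.trace_fin_two])
  have h10 := h !![0, 0; 1, 0] (by simp [Matrix.trace_fin_two])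
  have hH := h !![1, 0; 0, -1] (by simp [Matrix.trace_fin_two])
  rw [br_trace_mul] at h01 h10 hH
  simp at h01 h10 hH
  rw [Matrix.trace_fin_two] at hX
  have h00 : X 0 0 = 0 := by
    have : (2 : k) * X 0 0 = 0 := by linear_combination hX + hH
    rcases mul_eq_zero.mp this with h | h
    · exact absurd h h2
    · exact h
  have h11 : X 1 1 = 0 := by
    rw [h00, zero_add] at hX
    exact hX
  ext i j
  fin_cases i <;> fin_cases j
  · exact h00
  · exact h10
  · exact h01
  · exact h11

/-- **Surjectivity**: every linear form on the matrices is, on the trace-zero matrices, the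
trace form of a trace-zero matrix (`2 ≠ 0`). -/
theorem br_exists_trace_mul (h2 : (2 : k) ≠ 0) (F : Matrix (Fin 2) (Fin 2) k →ₗ[k] k) :
    ∃ X : Matrix (Fin 2) (Fin 2) k, X.trace = 0 ∧
      ∀ A : Matrix (Fin 2) (Fin 2) k, A.trace = 0 → (X * A).trace = F A := by
  refine ⟨!![F !![1, 0; 0, -1] / 2, F !![0, 0; 1, 0]; F !![0, 1; 0, 0], -(F !![1, 0; 0, -1] / 2)],
    by simp [Matrix.trace_fin_two], fun A hA => ?_⟩
  rw [Matrix.trace_fin_two] at hA
  have h11 : A 1 1 = -A 0 0 := by linear_combination hA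
  have hAexp : A = A 0 0 • !![1, 0; 0, -1] + A 0 1 • !![0, 1; 0, 0] + A 1 0 • !![0, 0; 1, 0] := by
    ext i j
    fin_cases i <;> fin_cases j <;> simp [h11]
  rw [br_trace_mul]
  conv_rhs => rw [hAexp]
  rw [map_add, map_add, map_smul, map_smul, map_smul]
  simp only [Matrix.of_apply, Matrix.cons_val', Matrix.cons_val_zero, Matrix.cons_val_one,
    Matrix.cons_val_fin_one, smul_eq_mul, h11]
  field_simp
  ring

end Fermat.Agent.S56.TW
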